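import Fermat.Agent.S40x.DepthB.Binomial

/-!
# S44/S40 (C3-AS, abstract core): the `H⁰`-constant of the normal form, and the Artin–Schreier
normal form of a Kummer unit over a base with ONE uniformiser

Setting: `A` any commutative ring (in the application `O₁ = A^{G₁}`, a DVR with uniformiser
`π = ζ_p - 1`), `B` an `A`-algebra with two charts `Boo B0` and `SatData Boo B0 a π` for this ONE `π`.

* `normalForm_unique_unit` : the landed (N2) `Cech.normalForm_unique` with the `H⁰`-constant `υ`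
  EXPORTED: `woo ≡ υ voo`, `υ w0 ≡ v0` modulo `π ^ n`;
* `coboundary_const` : `woo * w0 ≡ voo * v0` modulo `π ^ n` (all `≡ 1` modulo `π`) gives
  `woo ≡ υ voo`, `υ w0 ≡ v0` modulo `π ^ n`;
* `one_add_pow_prime_dvd` : `π ^ (p-1) ∣ p`, `π ∣ c - 1` ⟹ `π ^ p ∣ c ^ p - 1`;
* `exists_const_of_pow` (**(AS), abstract**): a cocycle `c ∈ 1 + π B` with `c ^ p * u0 = uoo`,
  `uoo ∈ 1 + π Boo`, `u0 ∈ 1 + π B0` (the two Kummer units `f₀ hoo^p`, `f₀ h0^p`) has
  `uoo ≡ υ ≡ u0` modulo `π ^ p` for a constant `υ ∈ 1 + π A`: so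
  `f₀ = υ hoo^{-p} (1 + π ^ p G)` with `G ∈ Boo`.
-/

set_option autoImplicit false

namespace Fermat.Agent.S40x.DepthB

open Fermat.Agent.S33x.Cech

variable {A : Type*} [CommRing A] {B : Type*} [CommRing B] [Algebra A B]
variable {Boo B0 : Subalgebra A B} {g : ℕ} {a : Fin g → B}

/-- (N2) with the `H⁰`-constant exported. -/
theorem normalForm_unique_unit {π : A} (H : SatData Boo B0 a π) (n : ℕ) {t t' : Fin g → A}
    (ht : ∀ i, π ∣ t i) (ht' : ∀ i, π ∣ t' i) {voo woo : Boo} {v0 w0 : B0}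
    (hvoo : algebraMap A Boo π ∣ voo - 1) (hwoo : algebraMap A Boo π ∣ woo - 1)
    (hv0 : algebraMap A B0 π ∣ v0 - 1) (hw0 : algebraMap A B0 π ∣ w0 - 1)
    (h : algebraMap A B π ^ (n + 1) ∣ (1 + comb a t) * woo * w0 - (1 + comb a t') * voo * v0) :
    (∀ i, π ^ (n + 1) ∣ t i - t' i) ∧ ∃ υ : A, π ∣ υ - 1 ∧
      algebraMap A Boo π ^ (n + 1) ∣ woo - υ • voo ∧
      algebraMap A B0 π ^ (n + 1) ∣ υ • w0 - v0 := by
  have key : ∀ j : ℕ, j ≤ n → (∀ i, π ^ (j + 1) ∣ t i - t' i) ∧ ∃ υ : A, π ∣ υ - 1 ∧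
      algebraMap A Boo π ^ (j + 1) ∣ woo - υ • voo ∧
      algebraMap A B0 π ^ (j + 1) ∣ υ • w0 - v0 := by
    intro j
    induction j with
    | zero =>
      intro _
      refine ⟨fun i => ?_, 1, by simp, ?_, ?_⟩
      · rw [zero_add, pow_one]
        exact dvd_sub (ht i) (ht' i)
      · rw [zero_add, pow_one, one_smul]
        have : woo - voo = (woo - 1) - (voo - 1) := by ring
        rw [this]
        exact dvd_sub hwoo hvoo
      · rw [zero_add, pow_one, one_smul]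
        have : w0 - v0 = (w0 - 1) - (v0 - 1) := by ring
        rw [this]
        exact dvd_sub hw0 hv0
    | succ j ih =>
      intro hj
      obtain ⟨hd, υ, hυ, h1, h2⟩ := ih (by omega)
      obtain ⟨m, hm⟩ : ∃ m, n + 1 = j + 1 + 1 + m := ⟨n - (j + 1), by omega⟩
      rw [hm] at h
      exact unique_step H ht' hvoo hw0 hv0 h hd υ hυ h1 h2
  exact key n le_rfl

/-- two coboundaries congruent modulo `π ^ n` differ by a constant. -/
theorem coboundary_const {π : A} (H : SatData Boo B0 a π) (n : ℕ) {voo woo : Boo} {v0 w0 : B0}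
    (hvoo : algebraMap A Boo π ∣ voo - 1) (hwoo : algebraMap A Boo π ∣ woo - 1)
    (hv0 : algebraMap A B0 π ∣ v0 - 1) (hw0 : algebraMap A B0 π ∣ w0 - 1)
    (h : algebraMap A B π ^ (n + 1) ∣ (woo : B) * w0 - voo * v0) :
    ∃ υ : A, π ∣ υ - 1 ∧ algebraMap A Boo π ^ (n + 1) ∣ woo - υ • voo ∧
      algebraMap A B0 π ^ (n + 1) ∣ υ • w0 - v0 := by
  have h' : algebraMap A B π ^ (n + 1) ∣
      (1 + comb a (0 : Fin g → A)) * woo * w0 - (1 + comb a (0 : Fin g → A)) * voo * v0 := by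
    simpa using h
  exact (normalForm_unique_unit H n (fun i => by simp) (fun i => by simp) hvoo hwoo hv0 hw0 h').2

/-- `c ≡ 1` modulo `π` and `π ^ (p-1) ∣ p` give `c ^ p ≡ 1` modulo `π ^ p`. -/
theorem one_add_pow_prime_dvd {R : Type*} [CommRing R] {p : ℕ} (hp : p.Prime) {π c : R}
    (hπp : π ^ (p - 1) ∣ (p : R)) (hc : π ∣ c - 1) : π ^ p ∣ c ^ p - 1 := by
  obtain ⟨z, hz⟩ := hc
  obtain ⟨e, he⟩ := hπp
  obtain ⟨h, hh⟩ := one_add_pow_prime hp (π * z)
  have hpp : p = (p - 1) + 1 := (Nat.succ_pred_eq_of_pos hp.pos).symm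
  have hc' : c = 1 + π * z := by rw [← hz]; ring
  have hπ : π ^ p = π ^ (p - 1) * π := by
    conv_lhs => rw [hpp, pow_succ]
  refine ⟨z ^ p + e * z * (1 + π * z * h), ?_⟩
  rw [hc', hh, mul_pow, he, hπ]
  ring

/-- **(AS), abstract core.** -/
theorem exists_const_of_pow {π : A} (H : SatData Boo B0 a π) {p : ℕ} (hp : p.Prime)
    (hπp : π ^ (p - 1) ∣ (p : A)) {c : B} (hc : algebraMap A B π ∣ c - 1)
    {uoo : Boo} {u0 : B0} (huoo : algebraMap A Boo π ∣ uoo - 1)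
    (hu0 : algebraMap A B0 π ∣ u0 - 1) (hcp : c ^ p * u0 = uoo) :
    ∃ υ : A, π ∣ υ - 1 ∧ algebraMap A Boo π ^ p ∣ uoo - algebraMap A Boo υ ∧
      algebraMap A B0 π ^ p ∣ algebraMap A B0 υ - u0 := by
  have hpp : p = (p - 1) + 1 := (Nat.succ_pred_eq_of_pos hp.pos).symm
  have h1 : algebraMap A B π ^ p ∣ c ^ p - 1 := by
    refine one_add_pow_prime_dvd hp ?_ hc
    have := map_dvd (algebraMap A B) hπp
    simpa using this
  have h2 : algebraMap A B π ^ (p - 1 + 1) ∣ ((uoo : Boo) : B) * ((1 : B0) : B)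
      - ((1 : Boo) : B) * u0 := by
    rw [← hpp, ← hcp]
    have : c ^ p * (u0 : B) * ((1 : B0) : B) - ((1 : Boo) : B) * u0 = (c ^ p - 1) * u0 := by
      push_cast; ring
    rw [this]
    exact Dvd.dvd.mul_right h1 _
  obtain ⟨υ, hυ, h3, h4⟩ := coboundary_const (a := a) H (p - 1) (by simp) huoo hu0 (by simp) h2
  rw [← hpp] at h3 h4
  refine ⟨υ, hυ, ?_, ?_⟩
  · simpa [Algebra.smul_def] using h3
  · simpa [Algebra.smul_def] using h4

end Fermat.Agent.S40x.DepthB
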