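import Fermat.Agent.S33x.Cech.Coord

/-!
# S40 research (R3), abstract DEPTH CALCULUS on Cech cocycles, independent second (helper58)

Setting = `S33x/Cech/CoordLit`: `A` a valuation domain of rank one (`hrank`), `sm A` its nonzero
nonunits, `B` an `A`-algebra with two charts `Boo B0 : Subalgebra A B`, `a : Fin g → B`
representatives of a basis of `H¹` (`Decomp`, `SatData π` for all `π ≠ 0`).
`Coord.Rel Boo B0 (sm A) q u v` = "`u` and `v` define the same class modulo `q`".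

This file: arithmetic of `sm A` (gcd, products, the exponent trick), the minimal coordinate,
`Rel.pow`, and the dictionary (K) between DEPTH and COORDINATES:

* `rel_comb_of_dvd` (K2): `q ∣ t i - t' i` for all `i` gives `Rel q (1 + ∑ t a) (1 + ∑ t' a)`;
* `dvd_sub_of_rel` (K1): `Rel (q * η) (1 + ∑ t a) (1 + ∑ t' a)`, `η ∈ sm A`, gives
  `q ∣ t i - t' i` (no precision bookkeeping is left to the user: the loss is the factor `η`);
* `exists_coords` (E): every `c ∈ 1 + ε B` has coordinates to any prescribed precision `Q ≠ 0`;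
* `first_order` (D1): `Rel (w * η) (1 + w z) 1` gives `z ∈ Boo + B0 + ε B` for some `ε ∈ sm A`.
-/

set_option autoImplicit false

namespace Fermat.Agent.S40x.DepthB

open Fermat.Agent.S33x.Cech Fermat.Agent.S33x.Cech.Coord IsLocalRing

section smallSet

variable (A : Type*) [CommRing A] [IsDomain A] [ValuationRing A]

/-- the nonzero nonunits of the valuation ring `A` -/
def sm : Set A := {π | π ∈ maximalIdeal A ∧ π ≠ 0}

variable {A}

theorem sm_gcd : ∀ ε ∈ sm A, ∀ ε' ∈ sm A, ∃ δ ∈ sm A, δ ∣ ε ∧ δ ∣ ε' := by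
  intro ε hε ε' hε'
  rcases ValuationRing.dvd_total ε ε' with h | h
  · exact ⟨ε, hε, dvd_rfl, h⟩
  · exact ⟨ε', hε', h, dvd_rfl⟩

theorem sm_gcd3 {ε1 ε2 ε3 : A} (h1 : ε1 ∈ sm A) (h2 : ε2 ∈ sm A) (h3 : ε3 ∈ sm A) :
    ∃ δ ∈ sm A, δ ∣ ε1 ∧ δ ∣ ε2 ∧ δ ∣ ε3 := by
  obtain ⟨δ, hδ, d1, d2⟩ := sm_gcd ε1 h1 ε2 h2
  obtain ⟨δ', hδ', e1, e2⟩ := sm_gcd δ hδ ε3 h3
  exact ⟨δ', hδ', e1.trans d1, e1.trans d2, e2⟩

theorem sm_mul {ε ε' : A} (h : ε ∈ sm A) (h' : ε' ∈ sm A) : ε * ε' ∈ sm A :=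
  ⟨Ideal.mul_mem_right _ _ h.1, mul_ne_zero h.2 h'.2⟩

theorem sm_mul_left {ε x : A} (h : ε ∈ sm A) (hx : x ≠ 0) : x * ε ∈ sm A :=
  ⟨Ideal.mul_mem_left _ _ h.1, mul_ne_zero hx h.2⟩

theorem sm_pow {ε : A} (h : ε ∈ sm A) {n : ℕ} (hn : n ≠ 0) : ε ^ n ∈ sm A :=
  ⟨Ideal.pow_mem_of_mem _ h.1 n (Nat.pos_of_ne_zero hn), pow_ne_zero n h.2⟩

theorem not_dvd_one {ε : A} (h : ε ∈ sm A) : ¬ ε ∣ 1 := fun hd =>
  (mem_maximalIdeal ε).mp h.1 (isUnit_of_dvd_one hd)

/-- `¬ q ∣ x` means that `x` divides `q` PROPERLY. -/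
theorem exists_eq_mul_of_not_dvd {q x : A} (hq : q ≠ 0) (h : ¬ q ∣ x) :
    ∃ e ∈ sm A, q = x * e := by
  obtain ⟨e, he⟩ := (ValuationRing.dvd_total q x).resolve_left h
  refine ⟨e, ⟨?_, fun h0 => hq (by rw [he, h0, mul_zero])⟩, he⟩
  rw [mem_maximalIdeal, mem_nonunits_iff]
  intro hu
  exact h ⟨↑hu.unit⁻¹, by rw [he, mul_assoc, IsUnit.mul_val_inv, mul_one]⟩

/-- elements of `A` outside `sm A` and nonzero are units -/
theorem isUnit_of_not_mem_sm {x : A} (hx : x ≠ 0) (h : x ∉ sm A) : IsUnit x := by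
  by_contra hu
  exact h ⟨(mem_maximalIdeal x).mpr hu, hx⟩

/-- **the exponent trick**: a power of `π` squeezed between `Q` (PROPERLY) and `Q * π`. -/
theorem exists_pow_between (hrank : ∀ x ∈ maximalIdeal A, ∀ c : A, c ≠ 0 → ∃ j : ℕ, c ∣ x ^ j)
    {π : A} (hπ : π ∈ sm A) {Q : A} (hQ : Q ≠ 0) :
    ∃ n : ℕ, (∃ e ∈ sm A, π ^ n = Q * e) ∧ π ^ n ∣ Q * π := by
  classical
  have hex : ∃ n : ℕ, ¬ π ^ n ∣ Q := by
    obtain ⟨j, hj⟩ := hrank π hπ.1 (Q * π) (mul_ne_zero hQ hπ.2)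
    refine ⟨j, fun h => not_dvd_one hπ ?_⟩
    have h1 : Q * π ∣ Q * 1 := by rw [mul_one]; exact hj.trans h
    exact (mul_dvd_mul_iff_left hQ).mp h1
  have hn := Nat.find_spec hex
  refine ⟨Nat.find hex, exists_eq_mul_of_not_dvd (pow_ne_zero _ hπ.2) hn, ?_⟩
  rcases Nat.eq_zero_or_eq_succ_pred (Nat.find hex) with h0 | hs
  · rw [h0, pow_zero]; exact one_dvd _
  · have hmin : ¬ ¬ π ^ (Nat.find hex).pred ∣ Q := Nat.find_min hex (Nat.pred_lt (by omega))
    rw [hs, pow_succ]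
    exact mul_dvd_mul (not_not.mp hmin) dvd_rfl

/-- a coordinate dividing all the others -/
theorem exists_min_coord {g : ℕ} (t : Fin g → A) (i1 : Fin g) : ∃ i0, ∀ i, t i0 ∣ t i := by
  classical
  have key : ∀ s : Finset (Fin g), s.Nonempty → ∃ i0 ∈ s, ∀ i ∈ s, t i0 ∣ t i := by
    intro s hs
    induction hs using Finset.Nonempty.cons_induction with
    | singleton j => exact ⟨j, Finset.mem_singleton_self j, fun i hi => by
        rw [Finset.mem_singleton.mp hi]⟩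
    | cons j s hj _ ih =>
      obtain ⟨i0, hi0, hmin⟩ := ih
      rcases ValuationRing.dvd_total (t j) (t i0) with h | h
      · refine ⟨j, Finset.mem_cons_self j s, fun i hi => ?_⟩
        rcases Finset.mem_cons.mp hi with rfl | hi
        · exact dvd_rfl
        · exact h.trans (hmin i hi)
      · refine ⟨i0, Finset.mem_cons.mpr (Or.inr hi0), fun i hi => ?_⟩
        rcases Finset.mem_cons.mp hi with rfl | hi
        · exact h
        · exact hmin i hi
  obtain ⟨i0, -, h⟩ := key Finset.univ ⟨i1, Finset.mem_univ i1⟩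
  exact ⟨i0, fun i => h i (Finset.mem_univ i)⟩

end smallSet

section rel

variable {A : Type*} [CommRing A] [IsDomain A] [ValuationRing A]
variable {B : Type*} [CommRing B] [Algebra A B]
variable {Boo B0 : Subalgebra A B} {g : ℕ} {a : Fin g → B}

theorem Rel.pow' {q : A} {u v : B} (h : Rel Boo B0 (sm A) q u v) (n : ℕ) :
    Rel Boo B0 (sm A) q (u ^ n) (v ^ n) := by
  induction n with
  | zero =>
    obtain ⟨ε, hε, -⟩ := h
    rw [pow_zero, pow_zero]
    exact Rel.refl hε q 1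
  | succ n ih =>
    rw [pow_succ, pow_succ]
    exact Rel.mul sm_gcd ih h

/-- a congruence is a relation -/
theorem rel_of_dvd_sub {ε : A} (hε : ε ∈ sm A) {q : A} {u v : B}
    (h : algebraMap A B q ∣ u - v) : Rel Boo B0 (sm A) q u v := by
  refine ⟨ε, hε, 1, 1, 1, 1, by simp, by simp, by simp, by simp, ?_⟩
  simpa using h

/-- **(K2)** congruent coordinates give related normal forms. -/
theorem rel_comb_of_dvd {ε : A} (hε : ε ∈ sm A) {q : A} {t t' : Fin g → A}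
    (h : ∀ i, q ∣ t i - t' i) :
    Rel Boo B0 (sm A) q (1 + comb a t) (1 + comb a t') :=
  rel_comb_of_dvd_sub hε h

theorem rel_comb_one_of_dvd {ε : A} (hε : ε ∈ sm A) {q : A} {t : Fin g → A}
    (h : ∀ i, q ∣ t i) : Rel Boo B0 (sm A) q (1 + comb a t) 1 := by
  have h1 : Rel Boo B0 (sm A) q (1 + comb a t) (1 + comb a (0 : Fin g → A)) :=
    rel_comb_of_dvd_sub hε (fun i => by simpa using h i)
  simpa using h1

variable (hrank : ∀ x ∈ maximalIdeal A, ∀ c : A, c ≠ 0 → ∃ j : ℕ, c ∣ x ^ j)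
  (hsat : ∀ π : A, π ≠ 0 → SatData Boo B0 a π)

include hrank hsat in
/-- **(K1)** related normal forms have congruent coordinates; the loss of precision is the
factor `η ∈ sm A`, and the congruence is even modulo `q * e` for some `e ∈ sm A`. -/
theorem dvd_sub_of_rel {ϖ : A} (hϖ : ϖ ∈ sm A) {t t' : Fin g → A} (ht : ∀ i, ϖ ∣ t i)
    (ht' : ∀ i, ϖ ∣ t' i) {q η : A} (hq : q ≠ 0) (hη : η ∈ sm A)
    (h : Rel Boo B0 (sm A) (q * η) (1 + comb a t) (1 + comb a t')) :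
    ∃ e ∈ sm A, ∀ i, q * e ∣ t i - t' i := by
  obtain ⟨ε, hε, r, r', s, s', h1, h2, h3, h4, h5⟩ := h
  obtain ⟨π, hπ, d1, d2, d3⟩ := sm_gcd3 hϖ hε hη
  obtain ⟨n, ⟨e, he, hn1⟩, hn2⟩ := exists_pow_between hrank hπ hq
  have h6 : algebraMap A B π ^ n ∣ (1 + comb a t) * r * s - (1 + comb a t') * r' * s' := by
    rw [← map_pow]
    exact algebraMap_dvd_of_dvd (hn2.trans (mul_dvd_mul_left q d3)) h5
  have h7 := normalForm_unique (hsat π hπ.2) n (fun i => d1.trans (ht i))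
    (fun i => d1.trans (ht' i)) (algebraMap_dvd_of_dvd d2 h2) (algebraMap_dvd_of_dvd d2 h1)
    (algebraMap_dvd_of_dvd d2 h4) (algebraMap_dvd_of_dvd d2 h3) h6
  exact ⟨e, he, fun i => by rw [← hn1]; exact h7 i⟩

include hrank hsat in
theorem dvd_of_rel_one {ϖ : A} (hϖ : ϖ ∈ sm A) {t : Fin g → A} (ht : ∀ i, ϖ ∣ t i)
    {q η : A} (hq : q ≠ 0) (hη : η ∈ sm A)
    (h : Rel Boo B0 (sm A) (q * η) (1 + comb a t) 1) : ∃ e ∈ sm A, ∀ i, q * e ∣ t i := by
  have h1 : Rel Boo B0 (sm A) (q * η) (1 + comb a t) (1 + comb a (0 : Fin g → A)) := by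
    simpa using h
  obtain ⟨e, he, h2⟩ := dvd_sub_of_rel hrank hsat hϖ ht (fun i => by simp) hq hη h1
  exact ⟨e, he, fun i => by simpa using h2 i⟩

include hrank in
/-- **(E)** coordinates to any prescribed precision. -/
theorem exists_coords (hdec : Decomp Boo B0 a) {ε : A} (hε : ε ∈ sm A) {c : B}
    (hc : algebraMap A B ε ∣ c - 1) {Q : A} (hQ : Q ≠ 0) :
    ∃ t : Fin g → A, (∀ i, ε ∣ t i) ∧ Rel Boo B0 (sm A) Q c (1 + comb a t) := by
  obtain ⟨j, hj⟩ := hrank ε hε.1 Q hQ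
  obtain ⟨t, ht, hrel⟩ := exists_comb (sm := sm A) hdec hε hc j
  exact ⟨t, ht, hrel.mono (hj.trans (pow_dvd_pow ε (Nat.le_succ j)))⟩

/-- absorbing the coboundary part of a first-order term: `1 + w (βoo + β0 + y)` and `1 + w y`
are related modulo `w ^ 2` (when `w ∣ ` nothing else is needed). -/
theorem rel_absorb {w : A} (hw : w ∈ sm A) (βoo : Boo) (β0 : B0) (y : B) :
    Rel Boo B0 (sm A) (w * w) (1 + algebraMap A B w * ((βoo : B) + β0 + y))
      (1 + algebraMap A B w * y) := by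
  refine ⟨w, hw, 1 - algebraMap A Boo w * βoo, 1, 1 - algebraMap A B0 w * β0, 1,
    ⟨-βoo, by ring⟩, by simp, ⟨-β0, by ring⟩, by simp, ?_⟩
  refine ⟨-y * ((βoo : B) + β0) - ((βoo : B) + β0) ^ 2
    + (1 + algebraMap A B w * ((βoo : B) + β0 + y)) * (βoo * β0), ?_⟩
  rw [map_mul]
  push_cast
  ring

include hrank hsat in
/-- **(D1)** first-order criterion: if `1 + w z` is a coboundary modulo `w * η` then `z` is a
coboundary modulo some `ε ∈ sm A`. -/
theorem first_order (hdec : Decomp Boo B0 a) {w η : A} (hw : w ∈ sm A) (hη : η ∈ sm A) {z : B}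
    (h : Rel Boo B0 (sm A) (w * η) (1 + algebraMap A B w * z) 1) :
    ∃ ε ∈ sm A, ∃ (βoo : Boo) (β0 : B0), algebraMap A B ε ∣ z - βoo - β0 := by
  obtain ⟨βoo, β0, s, hz⟩ := hdec z
  obtain ⟨δ, hδ, d1, d2⟩ := sm_gcd w hw η hη
  have h1 : Rel Boo B0 (sm A) (w * δ) (1 + algebraMap A B w * z) (1 + comb a (w • s)) := by
    have := (rel_absorb hw βoo β0 (comb a s)).mono (mul_dvd_mul_left w d1)
    rw [← hz] at this
    rwa [map_smul, Algebra.smul_def]
  have h2 : Rel Boo B0 (sm A) (w * δ) (1 + comb a (w • s)) 1 :=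
    (h1.symm).trans sm_gcd (h.mono (mul_dvd_mul_left w d2))
  obtain ⟨e, he, h3⟩ :=
    dvd_of_rel_one hrank hsat hw (t := w • s) (fun i => ⟨s i, rfl⟩) hw.2 hδ h2
  refine ⟨e, he, βoo, β0, ?_⟩
  have h4 : ∀ i, e ∣ s i := fun i => (mul_dvd_mul_iff_left hw.2).mp (by simpa using h3 i)
  have h5 : z - βoo - β0 = comb a s := by rw [hz]; ring
  rw [h5, comb, Fintype.linearCombination_apply]
  refine Finset.dvd_sum fun i _ => ?_
  obtain ⟨d, hd⟩ := h4 i
  rw [hd, Algebra.smul_def, map_mul, mul_assoc]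
  exact Dvd.intro _ rfl

end rel

end Fermat.Agent.S40x.DepthB
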