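import Fermat.Agent.S40x.DepthB.Basic

/-!
# S40 research (R3), depth calculus: the binomial lemma (P)

* `one_add_pow_prime` : `(1 + y) ^ p = 1 + y ^ p + p * y * (1 + y * h)`;
* `Deep p w` (depth `> 1/(p-1)`), `Shallow p w` (depth `< 1/(p-1)`);
* `pow_prime_of_deep` : `w ∣ θ`, `Deep p w` : `(1 + θ b) ^ p = 1 + p θ (b + δ b₂)`, `δ ∈ sm A`;
* `pow_prime_of_shallow` : `Shallow p θ` : `(1 + θ b) ^ p = 1 + θ ^ p (b ^ p + δ b₂)`, `δ ∈ sm A`;
* `assoc_of_not_deep_of_not_shallow` : neither deep nor shallow means `w ^ (p-1)` associated to `p`.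
-/

set_option autoImplicit false

namespace Fermat.Agent.S40x.DepthB

open Fermat.Agent.S33x.Cech Fermat.Agent.S33x.Cech.Coord IsLocalRing Polynomial

/-- the universal binomial identity with the middle terms divisible by `p * y` and the quotient
congruent to `1` modulo `y`. -/
theorem one_add_pow_prime {R : Type*} [CommRing R] {p : ℕ} (hp : p.Prime) (y : R) :
    ∃ h : R, (1 + y) ^ p = 1 + y ^ p + p * y * (1 + y * h) := by
  obtain ⟨r, hr⟩ := exists_add_pow_prime_eq hp (1 : ℤ[X]) X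
  have hc : r.coeff 0 = 1 := by
    have h1 := congrArg (fun f : ℤ[X] => f.coeff 1) hr
    simp only [coeff_one_add_X_pow, Nat.choose_one_right, one_pow, mul_one, coeff_add] at h1
    have hp1 : p ≠ 1 := hp.ne_one
    have h2 : ((1 : ℤ[X]).coeff 1) = 0 := by
      rw [coeff_one]; simp
    have h3 : ((X : ℤ[X]) ^ p).coeff 1 = 0 := by
      rw [coeff_X_pow]; simp [hp1.symm]
    have h4 : ((p : ℤ[X]) * X * r).coeff 1 = p * r.coeff 0 := by
      rw [mul_assoc, ← C_eq_natCast, coeff_C_mul, coeff_X_mul]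
    rw [h2, h3, h4] at h1
    have hp0 : (p : ℤ) ≠ 0 := by exact_mod_cast hp.ne_zero
    have h5 : (p : ℤ) * 1 = p * r.coeff 0 := by simpa using h1
    exact (mul_left_cancel₀ hp0 h5).symm
  obtain ⟨h, hh⟩ : X ∣ r - C (r.coeff 0) := X_dvd_sub_C
  rw [hc, C_1] at hh
  have hr' : r = 1 + X * h := by rw [← hh]; ring
  refine ⟨aeval y h, ?_⟩
  have h6 := congrArg (aeval y) hr
  rw [hr'] at h6
  simpa using h6

section depth

variable {A : Type*} [CommRing A] [IsDomain A] [ValuationRing A]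

/-- depth `> 1/(p-1)` -/
def Deep (p : ℕ) (w : A) : Prop := ∃ ε ∈ sm A, (p : A) * ε ∣ w ^ (p - 1)

/-- depth `< 1/(p-1)` -/
def Shallow (p : ℕ) (w : A) : Prop := ∃ ε ∈ sm A, w ^ (p - 1) * ε ∣ (p : A)

theorem Deep.of_dvd {p : ℕ} {w w' : A} (h : Deep p w) (hd : w ∣ w') : Deep p w' := by
  obtain ⟨ε, hε, h1⟩ := h
  exact ⟨ε, hε, h1.trans (pow_dvd_pow_of_dvd hd _)⟩

theorem Shallow.of_dvd {p : ℕ} {w w' : A} (h : Shallow p w) (hd : w' ∣ w) : Shallow p w' := by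
  obtain ⟨ε, hε, h1⟩ := h
  exact ⟨ε, hε, (mul_dvd_mul_right (pow_dvd_pow_of_dvd hd _) ε).trans h1⟩

theorem not_deep_of_shallow {p : ℕ} (hp0 : (p : A) ≠ 0) {w : A} (hs : Shallow p w) :
    ¬ Deep p w := by
  rintro ⟨ε, hε, h1⟩
  obtain ⟨ε', hε', h2⟩ := hs
  have h3 : (p : A) * (ε * ε') ∣ (p : A) * 1 := by
    rw [mul_one, ← mul_assoc]
    exact (mul_dvd_mul_right h1 ε').trans h2
  exact not_dvd_one (sm_mul hε hε') ((mul_dvd_mul_iff_left hp0).mp h3)

/-- neither deep nor shallow: `w ^ (p-1)` is associated to `p`. -/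
theorem associated_of_not_deep_of_not_shallow {p : ℕ} (hp0 : (p : A) ≠ 0) {w : A} (hw : w ≠ 0)
    (hd : ¬ Deep p w) (hs : ¬ Shallow p w) : Associated (w ^ (p - 1)) (p : A) := by
  have hw' : w ^ (p - 1) ≠ 0 := pow_ne_zero _ hw
  refine associated_of_dvd_dvd ?_ ?_
  · by_contra h
    obtain ⟨e, he, h1⟩ := exists_eq_mul_of_not_dvd hw' h
    exact hd ⟨e, he, by rw [h1]⟩
  · by_contra h
    obtain ⟨e, he, h1⟩ := exists_eq_mul_of_not_dvd hp0 h
    exact hs ⟨e, he, by rw [h1]⟩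

variable {B : Type*} [CommRing B] [Algebra A B]

/-- **(P), deep case.** -/
theorem pow_prime_of_deep {p : ℕ} (hp : p.Prime) {w θ : A} (hw : w ∈ sm A) (hθ : w ∣ θ)
    (hdeep : Deep p w) (b : B) :
    ∃ δ ∈ sm A, ∃ b2 : B, (1 + algebraMap A B θ * b) ^ p =
      1 + algebraMap A B ((p : A) * θ) * (b + algebraMap A B δ * b2) := by
  obtain ⟨ε, hε, e2, he2⟩ := hdeep
  obtain ⟨e1, he1⟩ := hθ
  obtain ⟨δ, hδ, ⟨e3, he3⟩, ⟨e4, he4⟩⟩ := sm_gcd w hw ε hε
  obtain ⟨h, hh⟩ := one_add_pow_prime hp (algebraMap A B θ * b)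
  have hpp : p = (p - 1) + 1 := (Nat.succ_pred_eq_of_pos hp.pos).symm
  -- `θ ^ p = p θ δ (e4 e2 e1^(p-1))`
  have hθp : θ ^ p = (p : A) * θ * δ * (e4 * e2 * e1 ^ (p - 1)) := by
    have : θ ^ (p - 1) = (p : A) * ε * e2 * e1 ^ (p - 1) := by
      rw [he1, mul_pow, he2]
    conv_lhs => rw [hpp, pow_succ, this, he4]
    ring
  refine ⟨δ, hδ, algebraMap A B (e3 * e1) * b ^ 2 * h
    + algebraMap A B (e4 * e2 * e1 ^ (p - 1)) * b ^ p, ?_⟩
  rw [hh, mul_pow, ← map_pow, hθp]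
  have hθ' : algebraMap A B θ = algebraMap A B δ * algebraMap A B (e3 * e1) := by
    rw [← map_mul, he1, he3]; ring_nf
  simp only [map_mul, map_natCast, map_pow]
  rw [hθ']
  simp only [map_mul]
  ring

/-- **(P), shallow case.** -/
theorem pow_prime_of_shallow {p : ℕ} (hp : p.Prime) {θ : A} (hshallow : Shallow p θ) (b : B) :
    ∃ δ ∈ sm A, ∃ b2 : B, (1 + algebraMap A B θ * b) ^ p =
      1 + algebraMap A B (θ ^ p) * (b ^ p + algebraMap A B δ * b2) := by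
  obtain ⟨ε, hε, e, he⟩ := hshallow
  obtain ⟨h, hh⟩ := one_add_pow_prime hp (algebraMap A B θ * b)
  have hpp : p = (p - 1) + 1 := (Nat.succ_pred_eq_of_pos hp.pos).symm
  have hpθ : (p : A) * θ = θ ^ p * ε * e := by
    conv_rhs => rw [hpp, pow_succ]
    rw [he]; ring
  refine ⟨ε, hε, algebraMap A B e * b * (1 + algebraMap A B θ * b * h), ?_⟩
  have h1 : (p : B) * (algebraMap A B θ * b) = algebraMap A B ((p : A) * θ) * b := by
    rw [map_mul, map_natCast]; ring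
  rw [hh, mul_pow, ← map_pow, h1, hpθ]
  simp only [map_mul]
  ring

end depth

end Fermat.Agent.S40x.DepthB
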