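import Fermat.Agent.S40x.DepthB.Torsion

/-!
# S40 research (R3), depth calculus: inertia acts by the cyclotomic character at depth `1/(p-1)`

`σA : A →+* A`, `σB : B →+* B` a semilinear operator preserving the two charts, `π₁ ∈ sm A` with
`π₁ ∣ p ∣ π₁ ^ (p-1)` (`π₁ = ζ_p - 1`), `σA π₁ ≡ e π₁` modulo `π₁ μ` (`μ ∈ sm A`), and
`σB z ≡ z` modulo some element of `sm A` (inertia is trivial on reductions).

* `twist_leading_dvd` : `σB (1 + π₁ z) * (1 + π₁ z) ^ (e (p-1)) ≡ 1` modulo `π₁ ε`, `ε ∈ sm A`;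
* `twist_rel_one` : if `c ~ 1 + π₁ z` modulo `π₁ η` then `u := σB c * c ^ (e (p-1))` is a
  coboundary modulo `π₁ η'` for some `η' ∈ sm A`;
* `twist_trivial` (M2): if moreover `c ^ p ~ 1` then `u` is a coboundary modulo every `q ≠ 0`.
-/

set_option autoImplicit false

namespace Fermat.Agent.S40x.DepthB

open Fermat.Agent.S33x.Cech Fermat.Agent.S33x.Cech.Coord IsLocalRing

variable {A : Type*} [CommRing A] [IsDomain A] [ValuationRing A]
variable {B : Type*} [CommRing B] [Algebra A B]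
variable {Boo B0 : Subalgebra A B} {g : ℕ} {a : Fin g → B}

/-- `(1 + y) ^ k = 1 + k y + y ^ 2 h`. -/
theorem one_add_pow_two {R : Type*} [CommRing R] (y : R) (k : ℕ) :
    ∃ h : R, (1 + y) ^ k = 1 + k * y + y ^ 2 * h := by
  induction k with
  | zero => exact ⟨0, by simp⟩
  | succ k ih =>
    obtain ⟨h, hh⟩ := ih
    refine ⟨h + k + y * h, ?_⟩
    rw [pow_succ, hh]
    push_cast
    ring

/-- the polynomial identity behind `twist_leading_dvd` -/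
theorem twist_identity {R : Type*} [CommRing R] (P E F1 F2 F3 M1 P1 z z1 h e : R)
    (hPE : P = E * F3) :
    (1 + (e * P + P * (E * F1) * M1) * (z + E * F2 * z1)) *
        (1 + (e * (P * P1) - e) * (P * z) + (P * z) ^ 2 * h) - 1 =
      P * E * (e * F2 * z1 + F1 * M1 * (z + E * F2 * z1) + F3 * e * P1 * z + F3 * z ^ 2 * h +
        F3 * (e + E * F1 * M1) * (z + E * F2 * z1) * ((e * (P * P1) - e) * z + P * z ^ 2 * h)) := by
  subst hPE
  ring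

section twist

variable (σA : A →+* A) (σB : B →+* B)
  (hσ : ∀ x : A, σB (algebraMap A B x) = algebraMap A B (σA x))
  (hσoo : ∀ x ∈ Boo, σB x ∈ Boo) (hσ0 : ∀ x ∈ B0, σB x ∈ B0)
  (hσdvd : ∀ ε ∈ sm A, ε ∣ σA ε)

include hσ hσoo hσ0 hσdvd in
/-- the twisted cocycle `σB c * c ^ k` is related to the twisted leading form. -/
theorem twist_rel {q : A} (hq : q ∣ σA q) {c v : B} (h : Rel Boo B0 (sm A) q c v) (k : ℕ) :
    Rel Boo B0 (sm A) q (σB c * c ^ k) (σB v * v ^ k) :=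
  Rel.mul sm_gcd
    (Rel.map σA σB hσ hσoo hσ0 (fun ε hε => ⟨ε, hε, hσdvd ε hε⟩) hq h) (Rel.pow' h k)

include hσ in
/-- the first-order computation: `σ(1 + π₁ z) (1 + π₁ z) ^ (e (p-1)) ≡ 1` modulo `π₁ ε`. -/
theorem twist_leading_dvd {p : ℕ} (hp : p.Prime) {π1 : A} (hπ1 : π1 ∈ sm A)
    (hπp : π1 ∣ (p : A)) {e : ℕ} {μ : A} (hμ : μ ∈ sm A) (hσπ : π1 * μ ∣ σA π1 - e * π1)
    {z : B} {εz : A} (hεz : εz ∈ sm A) (hz : algebraMap A B εz ∣ σB z - z) :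
    ∃ ε ∈ sm A, algebraMap A B (π1 * ε) ∣
      σB (1 + algebraMap A B π1 * z) * (1 + algebraMap A B π1 * z) ^ (e * (p - 1)) - 1 := by
  obtain ⟨ε, hε, ⟨f1, hf1⟩, ⟨f2, hf2⟩, ⟨f3, hf3⟩⟩ := sm_gcd3 hμ hεz hπ1
  obtain ⟨m1, hm1⟩ := hσπ
  obtain ⟨z1, hz1⟩ := hz
  obtain ⟨h, hh⟩ := one_add_pow_two (algebraMap A B π1 * z) (e * (p - 1))
  obtain ⟨p1, hp1⟩ := hπp
  have hpp : p = (p - 1) + 1 := (Nat.succ_pred_eq_of_pos hp.pos).symm
  refine ⟨ε, hε, ?_⟩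
  have hσπ1 : σA π1 = e * π1 + π1 * μ * m1 := by rw [← hm1]; ring
  have hσz : σB z = z + algebraMap A B εz * z1 := by rw [← hz1]; ring
  have hpB : (p : B) = algebraMap A B π1 * algebraMap A B p1 := by
    rw [← map_mul, ← hp1, map_natCast]
  have hkB : ((e * (p - 1) : ℕ) : B) =
      (e : B) * (algebraMap A B π1 * algebraMap A B p1) - e := by
    have h1 : e * (p - 1) + e = e * p := by
      conv_rhs => rw [hpp]
      ring
    have h2 : ((e * (p - 1) + e : ℕ) : B) = ((e * p : ℕ) : B) := congrArg _ h1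
    rw [Nat.cast_add, Nat.cast_mul e p, hpB] at h2
    rw [← h2]; ring
  have hμB : algebraMap A B μ = algebraMap A B ε * algebraMap A B f1 := by
    rw [← map_mul, ← hf1]
  have hzB : algebraMap A B εz = algebraMap A B ε * algebraMap A B f2 := by
    rw [← map_mul, ← hf2]
  have hπB : algebraMap A B π1 = algebraMap A B ε * algebraMap A B f3 := by
    rw [← map_mul, ← hf3]
  have key := twist_identity (algebraMap A B π1) (algebraMap A B ε) (algebraMap A B f1)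
    (algebraMap A B f2) (algebraMap A B f3) (algebraMap A B m1) (algebraMap A B p1) z z1 h
    (e : B) hπB
  rw [map_mul (algebraMap A B) π1 ε]
  refine Dvd.intro _ (key.symm.trans ?_)
  rw [map_add, map_one, map_mul, hσ, hσπ1, hσz, hh, hkB]
  simp only [map_add, map_mul, map_natCast]
  rw [hμB, hzB]

include hσ hσoo hσ0 hσdvd in
/-- if `c ~ 1 + π₁ z` modulo `π₁ η` then the twist `σB c * c ^ (e (p-1))` is a coboundary modulo
`π₁ η'`. -/
theorem twist_rel_one {p : ℕ} (hp : p.Prime) {π1 : A} (hπ1 : π1 ∈ sm A)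
    (hπp : π1 ∣ (p : A)) {e : ℕ} {μ : A} (hμ : μ ∈ sm A) (hσπ : π1 * μ ∣ σA π1 - e * π1)
    {z : B} {εz : A} (hεz : εz ∈ sm A) (hz : algebraMap A B εz ∣ σB z - z)
    {c : B} {η : A} (hη : η ∈ sm A)
    (hc : Rel Boo B0 (sm A) (π1 * η) c (1 + algebraMap A B π1 * z)) :
    ∃ η' ∈ sm A, Rel Boo B0 (sm A) (π1 * η') (σB c * c ^ (e * (p - 1))) 1 := by
  obtain ⟨ε, hε, hdvd⟩ := twist_leading_dvd σA σB hσ hp hπ1 hπp hμ hσπ hεz hz
  obtain ⟨η', hη', d1, d2⟩ := sm_gcd η hη ε hε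
  refine ⟨η', hη', ?_⟩
  have h1 := twist_rel σA σB hσ hσoo hσ0 hσdvd (hσdvd _ (sm_mul hπ1 hη)) hc (e * (p - 1))
  have h2 : Rel Boo B0 (sm A) (π1 * η')
      (σB (1 + algebraMap A B π1 * z) * (1 + algebraMap A B π1 * z) ^ (e * (p - 1))) 1 :=
    rel_of_dvd_sub hη' (algebraMap_dvd_of_dvd (mul_dvd_mul_left π1 d2) hdvd)
  exact (h1.mono (mul_dvd_mul_left π1 d1)).trans sm_gcd h2

include hσ hσoo hσ0 hσdvd in
/-- **(M2)** INERTIA ACTS BY `e` AT DEPTH `1/(p-1)`: for a `p`-torsion cocycle `c ~ 1 + π₁ z`, the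
twisted cocycle `σB c * c ^ (e (p-1))` (a cocycle of `σ x - e x`) is a coboundary modulo every
`q ≠ 0`. -/
theorem twist_trivial
    (hrank : ∀ x ∈ maximalIdeal A, ∀ c : A, c ≠ 0 → ∃ j : ℕ, c ∣ x ^ j)
    (hdec : Decomp Boo B0 a) (hsat : ∀ π : A, π ≠ 0 → SatData Boo B0 a π)
    {p : ℕ} (hp : p.Prime) (hpm : (p : A) ∈ sm A) {π1 : A} (hπ1 : π1 ∈ sm A)
    (hπp : π1 ∣ (p : A)) (hpπ : (p : A) ∣ π1 ^ (p - 1))
    {e : ℕ} {μ : A} (hμ : μ ∈ sm A) (hσπ : π1 * μ ∣ σA π1 - e * π1)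
    {z : B} {εz : A} (hεz : εz ∈ sm A) (hz : algebraMap A B εz ∣ σB z - z)
    {c : B} {ε1 : A} (hε1 : ε1 ∈ sm A) (hc1 : algebraMap A B ε1 ∣ c - 1)
    (hcp : Rel Boo B0 (sm A) 0 (c ^ p) 1) {η : A} (hη : η ∈ sm A)
    (hc : Rel Boo B0 (sm A) (π1 * η) c (1 + algebraMap A B π1 * z)) :
    ∀ q : A, q ≠ 0 → Rel Boo B0 (sm A) q (σB c * c ^ (e * (p - 1))) 1 := by
  obtain ⟨η', hη', hu⟩ :=
    twist_rel_one σA σB hσ hσoo hσ0 hσdvd hp hπ1 hπp hμ hσπ hεz hz hη hc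
  -- `u ≡ 1` modulo `ε1`
  have hu1 : algebraMap A B ε1 ∣ σB c * c ^ (e * (p - 1)) - 1 := by
    have h1 : algebraMap A B ε1 ∣ σB c - 1 := by
      obtain ⟨d, hd⟩ := hc1
      have : σB c - 1 = σB (c - 1) := by rw [map_sub, map_one]
      rw [this, hd, map_mul, hσ]
      exact Dvd.dvd.mul_right (map_dvd (algebraMap A B) (hσdvd ε1 hε1)) _
    have h2 : algebraMap A B ε1 ∣ c ^ (e * (p - 1)) - 1 :=
      hc1.trans (sub_one_dvd_pow_sub_one c (e * (p - 1)))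
    have : σB c * c ^ (e * (p - 1)) - 1 = (σB c - 1) * c ^ (e * (p - 1))
        + (c ^ (e * (p - 1)) - 1) := by ring
    rw [this]
    exact dvd_add (Dvd.dvd.mul_right h1 _) h2
  -- `u ^ p ~ 1`
  have hup : Rel Boo B0 (sm A) 0 ((σB c * c ^ (e * (p - 1))) ^ p) 1 := by
    have h1 := twist_rel σA σB hσ hσoo hσ0 hσdvd (by simp) hcp (e * (p - 1))
    have h2 : (σB c * c ^ (e * (p - 1))) ^ p = σB (c ^ p) * (c ^ p) ^ (e * (p - 1)) := by
      rw [map_pow, mul_pow, ← pow_mul, ← pow_mul, mul_comm p]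
    rw [h2]
    simpa using h1
  exact rel_one_of_pow_rel_one hrank hdec hsat hp hpm hε1 hu1 hup hπ1 hη' hpπ hu

end twist

end Fermat.Agent.S40x.DepthB
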