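import Fermat.Agent.S40x.DepthB.Inertia

/-!
# S40 research (R3), depth calculus: the dichotomy and the abstract form of (C4'')

* `exists_leading_pi1` (DICHOTOMY): a `p`-torsion cocycle `c` (`c ^ p ~ 1`) which is not a
  coboundary, and on whose leading classes Frobenius is injective (`hfrob`, supplied by the trace
  step (T) and the special-fibre step (F) for `x ∈ ker e_α ∩ ker e_β`), has depth EXACTLY
  `1/(p-1)`: to every precision `Q`, `c ~ 1 + π₁ z`.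
* `sigma_eq_smul` (abstract (C4'')): over the `Cyc` bundle of `Cech/Coord.exists_charts_of_cyc`,
  for such an `x` with `p • x = 0`: `σ x = e • x`.
-/

set_option autoImplicit false

namespace Fermat.Agent.S40x.DepthB

open Fermat.Agent.S33x.Cech Fermat.Agent.S33x.Cech.Coord IsLocalRing

variable {A : Type*} [CommRing A] [IsDomain A] [ValuationRing A]
variable {B : Type*} [CommRing B] [Algebra A B]
variable {Boo B0 : Subalgebra A B} {g : ℕ} {a : Fin g → B}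

/-- in a valuation domain, `x ^ n ~ y ^ n` (`n ≠ 0`) implies `x ~ y`. -/
theorem associated_of_pow_associated {x y : A} {n : ℕ} (hn : n ≠ 0) (hx : x ≠ 0)
    (h : Associated (x ^ n) (y ^ n)) : Associated x y := by
  have hy : y ≠ 0 := by
    rintro rfl
    rw [zero_pow hn] at h
    exact pow_ne_zero n hx (h.symm.eq_zero_iff.mp rfl)
  have key : ∀ {x y : A}, x ≠ 0 → x ^ n ∣ y ^ n → y ∣ x → Associated x y := by
    intro x y hx h1 ⟨d, hd⟩
    have h2 : y ^ n * d ^ n ∣ y ^ n * 1 := by rw [mul_one, ← mul_pow, ← hd]; exact h1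
    have hy : y ≠ 0 := fun h0 => hx (by rw [hd, h0, zero_mul])
    have h3 : d ^ n ∣ 1 := (mul_dvd_mul_iff_left (pow_ne_zero n hy)).mp h2
    have h4 : IsUnit d := (isUnit_pow_iff hn).mp (isUnit_of_dvd_one h3)
    rw [hd]
    exact associated_mul_unit_left y d h4
  rcases ValuationRing.dvd_total x y with h1 | h1
  · exact (key hy h.symm.dvd h1).symm
  · exact key hx h.dvd h1

variable (hrank : ∀ x ∈ maximalIdeal A, ∀ c : A, c ≠ 0 → ∃ j : ℕ, c ∣ x ^ j)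
  (hdec : Decomp Boo B0 a) (hsat : ∀ π : A, π ≠ 0 → SatData Boo B0 a π)

/-- the hypothesis supplied by (T) + (F): Frobenius is injective on the leading classes of `c`. -/
def FrobInj (Boo B0 : Subalgebra A B) (p : ℕ) (c : B) : Prop :=
  ∀ θ ∈ sm A, ∀ η ∈ sm A, ∀ b : B,
    Rel Boo B0 (sm A) (θ * η) c (1 + algebraMap A B θ * b) →
    (∃ ε ∈ sm A, ∃ (βoo : Boo) (β0 : B0), algebraMap A B ε ∣ b ^ p - βoo - β0) →
    ∃ ε ∈ sm A, ∃ (βoo : Boo) (β0 : B0), algebraMap A B ε ∣ b - βoo - β0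

include hrank hdec hsat in
/-- **DICHOTOMY**: depth exactly `1/(p-1)`. -/
theorem exists_leading_pi1 {p : ℕ} (hp : p.Prime) (hpm : (p : A) ∈ sm A) {π1 : A}
    (hπ1p : Associated (π1 ^ (p - 1)) (p : A))
    {c : B} {ε1 : A} (hε1 : ε1 ∈ sm A) (hc1 : algebraMap A B ε1 ∣ c - 1)
    (hcp : Rel Boo B0 (sm A) 0 (c ^ p) 1) (hfrob : FrobInj Boo B0 p c)
    {q : A} (hq : q ≠ 0) (hcq : ¬ Rel Boo B0 (sm A) q c 1) {Q : A} (hQ : Q ≠ 0) :
    ∃ z : B, Rel Boo B0 (sm A) Q c (1 + algebraMap A B π1 * z) := by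
  have hQ' : Q * ((p : A) * q * p) * (q ^ p * p) ≠ 0 :=
    mul_ne_zero (mul_ne_zero hQ (mul_ne_zero (mul_ne_zero hpm.2 hq) hpm.2))
      (mul_ne_zero (pow_ne_zero p hq) hpm.2)
  obtain ⟨θ, hθ, τ, i0, hτ, -, ⟨e, he, hqe⟩, hrel⟩ :=
    exists_leading hrank hdec hε1 hc1 hq hcq hQ'
  have hnd : ¬ Deep p θ := by
    refine not_deep_of_leading hrank hdec hsat hp hpm hcp hθ hτ (hrel.mono ?_)
    rw [hqe]
    exact ⟨Q * e * ((θ * e) ^ p * p), by ring⟩
  have hns : ¬ Shallow p θ := by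
    intro hsh
    have h1 : Rel Boo B0 (sm A) (θ ^ p * p) c (1 + algebraMap A B θ * comb a τ) := by
      refine hrel.mono ?_
      rw [hqe, mul_pow]
      exact ⟨Q * ((p : A) * (θ * e) * p) * e ^ p, by ring⟩
    obtain ⟨ε, hε, βoo, β0, h2⟩ := frob_of_shallow hrank hdec hsat hp hcp hθ hpm hsh h1
    have h3 : Rel Boo B0 (sm A) (θ * p) c (1 + algebraMap A B θ * comb a τ) := by
      refine h1.mono (mul_dvd_mul_right ?_ _)
      exact dvd_pow_self θ hp.ne_zero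
    obtain ⟨ε', hε', βoo', β0', h4⟩ := hfrob θ hθ p hpm (comb a τ) h3 ⟨ε, hε, βoo, β0, h2⟩
    exact not_coboundary_of_coord_one hsat hτ hε' βoo' β0' h4
  have hass : Associated (θ ^ (p - 1)) (π1 ^ (p - 1)) :=
    (associated_of_not_deep_of_not_shallow hpm.2 hθ.2 hnd hns).trans hπ1p.symm
  obtain ⟨υ, hυ⟩ := (associated_of_pow_associated (Nat.sub_ne_zero_of_lt hp.one_lt) hθ.2
    hass).symm
  refine ⟨algebraMap A B υ * comb a τ, ?_⟩
  have h5 : algebraMap A B π1 * (algebraMap A B υ * comb a τ)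
      = algebraMap A B θ * comb a τ := by
    rw [← mul_assoc, ← map_mul, hυ]
  rw [h5]
  exact hrel.mono ⟨((p : A) * q * p) * (q ^ p * p), by ring⟩

section cyc

variable {X : Type*} [AddCommGroup X] (σA : A →+* A) (σB : B →+* B) (σX : X → X)
  (hσ : ∀ x : A, σB (algebraMap A B x) = algebraMap A B (σA x))
  (hσoo : ∀ x ∈ Boo, σB x ∈ Boo) (hσ0 : ∀ x ∈ B0, σB x ∈ B0)
  (hσdvd : ∀ ε ∈ sm A, ε ∣ σA ε)
  (Cyc : X → Set B)
  (hcyc1 : ∀ x, ∀ c ∈ Cyc x, ∃ ε ∈ sm A, algebraMap A B ε ∣ c - 1)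
  (hcyc0 : (1 : B) ∈ Cyc 0)
  (hcycmul : ∀ x y, ∀ c ∈ Cyc x, ∀ c' ∈ Cyc y, c * c' ∈ Cyc (x + y))
  (hcycrel : ∀ x, ∀ c ∈ Cyc x, ∀ c' ∈ Cyc x, Rel Boo B0 (sm A) 0 c c')
  (hcycgal : ∀ x, ∀ c ∈ Cyc x, σB c ∈ Cyc (σX x))
  (hcycinj : ∀ x, x ≠ 0 → ∃ c ∈ Cyc x, ∃ q : A, q ≠ 0 ∧ ¬ Rel Boo B0 (sm A) q c 1)

include hcyc0 hcycmul in
theorem pow_mem_cyc {x : X} {c : B} (hc : c ∈ Cyc x) (n : ℕ) : c ^ n ∈ Cyc (n • x) := by
  induction n with
  | zero => simpa using hcyc0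
  | succ n ih =>
    rw [pow_succ, succ_nsmul]
    exact hcycmul _ _ _ ih _ hc

include hcycrel hcycinj in
/-- a class with a cocycle which is a coboundary to every precision is zero. -/
theorem eq_zero_of_trivial {y : X} {u : B} (hu : u ∈ Cyc y)
    (h : ∀ q : A, q ≠ 0 → Rel Boo B0 (sm A) q u 1) : y = 0 := by
  by_contra hy
  obtain ⟨c', hc', q, hq, hcq⟩ := hcycinj y hy
  exact hcq (((hcycrel y c' hc' u hu).of_zero q).trans sm_gcd (h q hq))

include hrank hdec hsat hσ hσoo hσ0 hσdvd hcyc1 hcyc0 hcycmul hcycrel hcycgal hcycinj in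
/-- **abstract (C4'')**: on a `p`-torsion class whose leading classes are Frobenius-injective,
the operator `σ` acts by `e` (`σA π₁ ≡ e π₁`, i.e. `e` = the cyclotomic character). -/
theorem sigma_eq_smul {p : ℕ} (hp : p.Prime) (hpm : (p : A) ∈ sm A) {π1 : A}
    (hπ1 : π1 ∈ sm A) (hπ1p : Associated (π1 ^ (p - 1)) (p : A))
    {e : ℕ} {μ : A} (hμ : μ ∈ sm A) (hσπ : π1 * μ ∣ σA π1 - e * π1)
    (htriv : ∀ z : B, ∃ ε ∈ sm A, algebraMap A B ε ∣ σB z - z)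
    {x : X} (hpx : p • x = 0) {c : B} (hc : c ∈ Cyc x) (hfrob : FrobInj Boo B0 p c) :
    σX x = e • x := by
  have hpp : p = (p - 1) + 1 := (Nat.succ_pred_eq_of_pos hp.pos).symm
  have hπp : π1 ∣ (p : A) := (dvd_pow_self π1 (Nat.sub_ne_zero_of_lt hp.one_lt)).trans hπ1p.dvd
  have hpπ : (p : A) ∣ π1 ^ (p - 1) := hπ1p.symm.dvd
  obtain ⟨ε1, hε1, hc1⟩ := hcyc1 x c hc
  have hcp : Rel Boo B0 (sm A) 0 (c ^ p) 1 := by
    have h1 := pow_mem_cyc Cyc hcyc0 hcycmul hc p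
    rw [hpx] at h1
    exact hcycrel 0 _ h1 _ hcyc0
  -- the twisted cocycle
  have hu : σB c * c ^ (e * (p - 1)) ∈ Cyc (σX x + (e * (p - 1)) • x) :=
    hcycmul _ _ _ (hcycgal x c hc) _ (pow_mem_cyc Cyc hcyc0 hcycmul hc _)
  have htrivu : ∀ q : A, q ≠ 0 → Rel Boo B0 (sm A) q (σB c * c ^ (e * (p - 1))) 1 := by
    by_cases hall : ∀ q : A, q ≠ 0 → Rel Boo B0 (sm A) q c 1
    · intro q hq
      have hqσ : q ∣ σA q := by
        by_cases hqm : q ∈ sm A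
        · exact hσdvd q hqm
        · exact (isUnit_of_not_mem_sm hq hqm).dvd
      have h1 := twist_rel σA σB hσ hσoo hσ0 hσdvd hqσ (hall q hq) (e * (p - 1))
      simpa using h1
    · push Not at hall
      obtain ⟨q, hq, hcq⟩ := hall
      obtain ⟨z, hz⟩ := exists_leading_pi1 hrank hdec hsat hp hpm hπ1p hε1 hc1 hcp hfrob hq hcq
        (mul_ne_zero hπ1.2 hπ1.2)
      obtain ⟨εz, hεz, hzz⟩ := htriv z
      exact twist_trivial σA σB hσ hσoo hσ0 hσdvd hrank hdec hsat hp hpm hπ1 hπp hpπ hμ hσπ hεz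
        hzz hε1 hc1 hcp hπ1 hz
  have hy := eq_zero_of_trivial Cyc hcycrel hcycinj hu htrivu
  -- `σ x = -(e (p-1)) x = e x`
  have h1 : (e * (p - 1)) • x + e • x = 0 := by
    rw [← add_nsmul]
    have : e * (p - 1) + e = e * p := by
      conv_rhs => rw [hpp]
      ring
    rw [this, mul_comm, mul_nsmul, hpx, nsmul_zero]
  have h2 : σX x = -((e * (p - 1)) • x) := eq_neg_of_add_eq_zero_left hy
  rw [h2]
  exact neg_eq_of_add_eq_zero_right h1

end cyc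

end Fermat.Agent.S40x.DepthB
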