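import Fermat.Agent.S40x.DepthB.Binomial

/-!
# S40 research (R3), depth calculus: leading terms and `p`-torsion cocycles

`c : B` a cocycle with `c ≡ 1` modulo some `ε₁ ∈ sm A`.

* `exists_leading` (L): if `c` is NOT a coboundary modulo `q` then, to any precision `Q`,
  `c ~ 1 + θ b` with `b = ∑ τ_i a_i`, `τ_{i0} = 1` for some `i0`, and `θ` a PROPER divisor of `q`;
* `not_coboundary_of_coord_one` : such a `b` is not a coboundary modulo any `ε ∈ sm A`;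
* `not_deep_of_leading` (M1-core): if moreover `c ^ p ~ 1` then `θ` is not deep;
* `rel_one_of_pow_rel_one` (M1): `c ^ p ~ 1`, `c ~ 1` modulo `w η` with `p ∣ w ^ (p-1)`
  (depth of `c` `> 1/(p-1)`) implies `c ~ 1` modulo every `q ≠ 0`;
* `frob_of_shallow` (N1): `c ^ p ~ 1`, `c ~ 1 + θ b` with `θ` shallow: `b ^ p` is a coboundary
  modulo some `ε ∈ sm A` (Frobenius kills the leading class).
-/

set_option autoImplicit false

namespace Fermat.Agent.S40x.DepthB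

open Fermat.Agent.S33x.Cech Fermat.Agent.S33x.Cech.Coord IsLocalRing

variable {A : Type*} [CommRing A] [IsDomain A] [ValuationRing A]
variable {B : Type*} [CommRing B] [Algebra A B]
variable {Boo B0 : Subalgebra A B} {g : ℕ} {a : Fin g → B}

/-- `b = ∑ τ_i a_i` with some `τ_{i0} = 1` is not a coboundary modulo `ε ∈ sm A` (saturation). -/
theorem not_coboundary_of_coord_one (hsat : ∀ π : A, π ≠ 0 → SatData Boo B0 a π)
    {τ : Fin g → A} {i0 : Fin g} (hτ : τ i0 = 1) {ε : A} (hε : ε ∈ sm A) (βoo : Boo) (β0 : B0) :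
    ¬ algebraMap A B ε ∣ comb a τ - βoo - β0 := by
  intro h
  have h1 : algebraMap A B ε ∣ ((-βoo : Boo) : B) + ((-β0 : B0) : B) + comb a τ := by
    have : ((-βoo : Boo) : B) + ((-β0 : B0) : B) + comb a τ = comb a τ - βoo - β0 := by
      push_cast; ring
    rwa [this]
  have h2 := (hsat ε hε.2).sat (-βoo) (-β0) τ h1 i0
  rw [hτ] at h2
  exact not_dvd_one hε h2

variable (hrank : ∀ x ∈ maximalIdeal A, ∀ c : A, c ≠ 0 → ∃ j : ℕ, c ∣ x ^ j)
  (hdec : Decomp Boo B0 a) (hsat : ∀ π : A, π ≠ 0 → SatData Boo B0 a π)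

include hrank hdec in
/-- **(L)** the leading term of a cocycle which is not a coboundary modulo `q`. -/
theorem exists_leading {ε1 : A} (hε1 : ε1 ∈ sm A) {c : B} (hc1 : algebraMap A B ε1 ∣ c - 1)
    {q : A} (hq : q ≠ 0) (hcq : ¬ Rel Boo B0 (sm A) q c 1) {Q : A} (hQ : Q ≠ 0) :
    ∃ θ ∈ sm A, ∃ (τ : Fin g → A) (i0 : Fin g), τ i0 = 1 ∧ ε1 ∣ θ ∧ (∃ e ∈ sm A, q = θ * e) ∧
      Rel Boo B0 (sm A) Q c (1 + algebraMap A B θ * comb a τ) := by
  obtain ⟨t, ht, hrel⟩ := exists_coords hrank hdec hε1 hc1 (mul_ne_zero hQ hq)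
  have hex : ∃ i1, ¬ q ∣ t i1 := by
    by_contra hcon
    push Not at hcon
    exact hcq ((hrel.mono (Dvd.intro_left Q rfl)).trans sm_gcd (rel_comb_one_of_dvd hε1 hcon))
  obtain ⟨i1, hi1⟩ := hex
  obtain ⟨i0, hmin⟩ := exists_min_coord t i1
  have hθq : ¬ q ∣ t i0 := fun h => hi1 (h.trans (hmin i1))
  obtain ⟨e, he, hqe⟩ := exists_eq_mul_of_not_dvd hq hθq
  have hθ0 : t i0 ≠ 0 := fun h0 => hq (by rw [hqe, h0, zero_mul])
  have hθm : t i0 ∈ sm A := by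
    obtain ⟨d, hd⟩ := ht i0
    exact ⟨by rw [hd]; exact Ideal.mul_mem_right _ _ hε1.1, hθ0⟩
  obtain ⟨τ, hτ1, hτ2⟩ := comb_eq_of_dvd (a := a) hmin
  have hτ0 : τ i0 = 1 := by
    have h1 := congrFun hτ1 i0
    simp only [Pi.smul_apply, smul_eq_mul] at h1
    have h2 : t i0 * τ i0 = t i0 * 1 := by rw [mul_one]; exact h1.symm
    exact mul_left_cancel₀ hθ0 h2
  refine ⟨t i0, hθm, τ, i0, hτ0, ht i0, ⟨e, he, hqe⟩, ?_⟩
  rw [← hτ2]
  exact hrel.mono (Dvd.intro _ rfl)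

include hrank hdec hsat in
/-- **(M1-core)** the leading term of a `p`-torsion cocycle is not deep. -/
theorem not_deep_of_leading {p : ℕ} (hp : p.Prime) (hpm : (p : A) ∈ sm A) {c : B}
    (hcp : Rel Boo B0 (sm A) 0 (c ^ p) 1) {θ : A} (hθ : θ ∈ sm A) {τ : Fin g → A} {i0 : Fin g}
    (hτ : τ i0 = 1)
    (hrel : Rel Boo B0 (sm A) ((p : A) * θ * p) c (1 + algebraMap A B θ * comb a τ)) :
    ¬ Deep p θ := by
  intro hdeep
  obtain ⟨δ, hδ, b2, hpow⟩ := pow_prime_of_deep (B := B) hp hθ dvd_rfl hdeep (comb a τ)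
  have h1 : Rel Boo B0 (sm A) ((p : A) * θ * p)
      (1 + algebraMap A B ((p : A) * θ) * (comb a τ + algebraMap A B δ * b2)) 1 := by
    rw [← hpow]
    exact ((Rel.pow' hrel p).symm).trans sm_gcd (hcp.of_zero _)
  obtain ⟨ε, hε, βoo, β0, h2⟩ :=
    first_order hrank hsat hdec (sm_mul_left hθ hpm.2) hpm h1
  obtain ⟨δ', hδ', d1, d2⟩ := sm_gcd ε hε δ hδ
  -- `comb a τ - βoo - β0` is divisible by `δ'`
  refine not_coboundary_of_coord_one hsat hτ hδ' βoo β0 ?_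
  have h3 : comb a τ - βoo - β0 =
      (comb a τ + algebraMap A B δ * b2 - βoo - β0) - algebraMap A B δ * b2 := by ring
  rw [h3]
  exact dvd_sub (algebraMap_dvd_of_dvd d1 h2)
    (Dvd.dvd.mul_right (map_dvd (algebraMap A B) d2) b2)

include hrank hdec hsat in
/-- **(M1)** NO DEEP `p`-TORSION: a cocycle with `c ^ p ~ 1` which is a coboundary modulo `w η`,
`p ∣ w ^ (p-1)`, `η ∈ sm A` (depth `> 1/(p-1)`), is a coboundary modulo every `q ≠ 0`. -/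
theorem rel_one_of_pow_rel_one {p : ℕ} (hp : p.Prime) (hpm : (p : A) ∈ sm A) {c : B}
    {ε1 : A} (hε1 : ε1 ∈ sm A) (hc1 : algebraMap A B ε1 ∣ c - 1)
    (hcp : Rel Boo B0 (sm A) 0 (c ^ p) 1) {w η : A} (hw : w ∈ sm A) (hη : η ∈ sm A)
    (hwp : (p : A) ∣ w ^ (p - 1)) (hcw : Rel Boo B0 (sm A) (w * η) c 1) :
    ∀ q : A, q ≠ 0 → Rel Boo B0 (sm A) q c 1 := by
  intro q hq
  by_contra hcq
  have hQ : (p : A) * q * p * (w * η) ≠ 0 :=
    mul_ne_zero (mul_ne_zero (mul_ne_zero hpm.2 hq) hpm.2) (mul_ne_zero hw.2 hη.2)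
  obtain ⟨θ, hθ, τ, i0, hτ, -, ⟨e, he, hqe⟩, hrel⟩ :=
    exists_leading hrank hdec hε1 hc1 hq hcq hQ
  -- `w * e' ∣ θ`
  have h1 : Rel Boo B0 (sm A) (w * η) (1 + comb a (θ • τ)) 1 := by
    rw [map_smul, Algebra.smul_def]
    exact ((hrel.mono (Dvd.intro_left _ rfl)).symm).trans sm_gcd hcw
  obtain ⟨e', he', h2⟩ :=
    dvd_of_rel_one hrank hsat hθ (t := θ • τ) (fun i => ⟨τ i, rfl⟩) hw.2 hη h1
  have h3 : w * e' ∣ θ := by
    have := h2 i0
    simpa [hτ] using this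
  -- hence `θ` is deep
  have hdeep : Deep p θ := by
    refine Deep.of_dvd ⟨e' ^ (p - 1), sm_pow he' (Nat.sub_ne_zero_of_lt hp.one_lt), ?_⟩ h3
    rw [mul_pow]
    exact mul_dvd_mul_right hwp _
  refine not_deep_of_leading hrank hdec hsat hp hpm hcp hθ hτ (hrel.mono ?_) hdeep
  rw [hqe]
  exact ⟨e * (w * η), by ring⟩

include hrank hdec hsat in
/-- **(N1)** FROBENIUS KILLS A SHALLOW LEADING CLASS. -/
theorem frob_of_shallow {p : ℕ} (hp : p.Prime) {c : B}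
    (hcp : Rel Boo B0 (sm A) 0 (c ^ p) 1) {θ η : A} (hθ : θ ∈ sm A) (hη : η ∈ sm A)
    (hsh : Shallow p θ) {b : B}
    (hrel : Rel Boo B0 (sm A) (θ ^ p * η) c (1 + algebraMap A B θ * b)) :
    ∃ ε ∈ sm A, ∃ (βoo : Boo) (β0 : B0), algebraMap A B ε ∣ b ^ p - βoo - β0 := by
  obtain ⟨δ, hδ, b2, hpow⟩ := pow_prime_of_shallow (B := B) hp hsh b
  have h1 : Rel Boo B0 (sm A) (θ ^ p * η)
      (1 + algebraMap A B (θ ^ p) * (b ^ p + algebraMap A B δ * b2)) 1 := by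
    rw [← hpow]
    exact ((Rel.pow' hrel p).symm).trans sm_gcd (hcp.of_zero _)
  obtain ⟨ε, hε, βoo, β0, h2⟩ :=
    first_order hrank hsat hdec (sm_pow hθ hp.ne_zero) hη h1
  obtain ⟨δ', hδ', d1, d2⟩ := sm_gcd ε hε δ hδ
  refine ⟨δ', hδ', βoo, β0, ?_⟩
  have h3 : b ^ p - βoo - β0 =
      (b ^ p + algebraMap A B δ * b2 - βoo - β0) - algebraMap A B δ * b2 := by ring
  rw [h3]
  exact dvd_sub (algebraMap_dvd_of_dvd d1 h2)
    (Dvd.dvd.mul_right (map_dvd (algebraMap A B) d2) b2)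

end Fermat.Agent.S40x.DepthB
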